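import Mathlib.Algebra.MvPolynomial.Monad
import Mathlib.Algebra.MvPolynomial.Eval
import Mathlib.Algebra.Algebra.Equiv
import Mathlib.Algebra.Group.Subgroup.Basic
import Mathlib.GroupTheory.Perm.Basic

/-!
# Automorphisms of affine space with integral coefficients

The automorphisms of `K[X]` with coefficients, and inverse coefficients, in a subring `O` form a
group, acting on the points over every `O`-algebra.
-/

set_option autoImplicit false

noncomputable section

open MvPolynomial

namespace FA.BassLubotzky

variable {σ : Type*} {K : Type*} [Field K]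

/-- The automorphisms of affine space, as algebra automorphisms. -/
abbrev PolyAut (σ K : Type*) [Field K] := MvPolynomial σ K ≃ₐ[K] MvPolynomial σ K

theorem aut_apply (g : PolyAut σ K) (Φ : MvPolynomial σ K) :
    g Φ = bind₁ (fun i => g (X i)) Φ :=
  AlgHom.congr_fun (show g.toAlgHom = bind₁ fun i => g (X i) from algHom_ext fun i => by simp) Φ

/-- Integral coefficients in both directions. -/
def integralAut (σ : Type*) (O : Subring K) : Subgroup (PolyAut σ K) where
  carrier := {g | ∀ i, g (X i) ∈ (map (σ := σ) O.subtype).range ∧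
    g⁻¹ (X i) ∈ (map (σ := σ) O.subtype).range}
  one_mem' i := ⟨⟨X i, by simp⟩, ⟨X i, by simp⟩⟩
  inv_mem' {g} hg i := ⟨(hg i).2, by rw [inv_inv]; exact (hg i).1⟩
  mul_mem' {g h} hg hh i := by
    have key : ∀ a b : PolyAut σ K, (∀ i, a (X i) ∈ (map (σ := σ) O.subtype).range) →
        (∀ i, b (X i) ∈ (map (σ := σ) O.subtype).range) →
        (a * b) (X i) ∈ (map (σ := σ) O.subtype).range := by
      intro a b ha hb
      choose a₀ ha₀ using fun i => RingHom.mem_range.1 (ha i)
      obtain ⟨b₀, hb₀⟩ := RingHom.mem_range.1 (hb i)
      refine ⟨bind₁ a₀ b₀, ?_⟩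
      rw [map_bind₁, hb₀, funext ha₀, AlgEquiv.mul_apply, ← aut_apply]
    refine ⟨key g h (fun i => (hg i).1) fun i => (hh i).1, ?_⟩
    rw [mul_inv_rev]
    exact key h⁻¹ g⁻¹ (fun i => (hh i).2) fun i => (hg i).2

variable {O : Subring K}

/-- The integral polynomials of an automorphism. -/
def liftMap (g : integralAut σ O) (i : σ) : MvPolynomial σ O :=
  (RingHom.mem_range.1 (g.2 i).1).choose

theorem map_liftMap (g : integralAut σ O) (i : σ) :
    map O.subtype (liftMap g i) = (g : PolyAut σ K) (X i) :=
  (RingHom.mem_range.1 (g.2 i).1).choose_spec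

theorem liftMap_one : liftMap (1 : integralAut σ O) = X := funext fun i =>
  map_injective O.subtype Subtype.val_injective (by simp [map_liftMap])

theorem liftMap_mul (g h : integralAut σ O) (i : σ) :
    liftMap (g * h) i = bind₁ (liftMap g) (liftMap h i) := by
  refine map_injective O.subtype Subtype.val_injective ?_
  rw [map_liftMap, map_bind₁, map_liftMap, funext (map_liftMap g), Subgroup.coe_mul,
    AlgEquiv.mul_apply, ← aut_apply]

variable {R : Type*} [CommRing R]

/-- The substitution of `g` on points. -/
def actMap (χ : O →+* R) (g : integralAut σ O) (x : σ → R) : σ → R :=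
  fun i => eval x (map χ (liftMap g i))

theorem actMap_one (χ : O →+* R) (x : σ → R) : actMap χ (1 : integralAut σ O) x = x := by
  funext i
  simp [actMap, liftMap_one]

theorem actMap_mul (χ : O →+* R) (g h : integralAut σ O) (x : σ → R) :
    actMap χ (g * h) x = actMap χ h (actMap χ g x) := by
  funext i
  rw [actMap, liftMap_mul, map_bind₁]
  exact eval₂Hom_bind₁ (RingHom.id R) x _ _

/-- The group acts on the points over every `O`-algebra. -/
def pointAction (χ : O →+* R) : integralAut σ O →* Equiv.Perm (σ → R) where
  toFun g :=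
    { toFun := actMap χ g⁻¹
      invFun := actMap χ g
      left_inv := fun x => by rw [← actMap_mul, inv_mul_cancel, actMap_one]
      right_inv := fun x => by rw [← actMap_mul, mul_inv_cancel, actMap_one] }
  map_one' := Equiv.ext fun x => by simp [actMap_one]
  map_mul' g h := Equiv.ext fun x => by simp [actMap_mul]

theorem pointAction_eq_one {χ : O →+* R} {g : integralAut σ O} (h : pointAction χ g = 1)
    (x : σ → R) : actMap χ g x = x :=
  (Equiv.symm_apply_eq (pointAction χ g)).2 (by rw [h]; rfl)

theorem actMap_pow (χ : O →+* R) (g : integralAut σ O) (m : ℕ) (x : σ → R) :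
    actMap χ (g ^ m) x = (actMap χ g)^[m] x := by
  induction m generalizing x with
  | zero => simp [actMap_one]
  | succ m ih => rw [pow_succ', actMap_mul, ih, Function.iterate_succ_apply]

theorem comp_actMap {R' : Type*} [CommRing R'] (χ : O →+* R) (φ : R →+* R') (g : integralAut σ O)
    (x : σ → R) : φ ∘ actMap χ g x = actMap (φ.comp χ) g (φ ∘ x) := by
  funext i
  show φ (eval x (map χ (liftMap g i))) = eval (φ ∘ x) (map (φ.comp χ) (liftMap g i))
  rw [← map_map, eval_map (f := φ), ← eval₂_id, eval₂_comp_left, RingHom.comp_id]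

end FA.BassLubotzky

end
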