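import Fermat.Agent.BassLubotzky.Action
import Fermat.Agent.DynamicalMordellLang.Main
import Mathlib.Algebra.MvPolynomial.Funext
import Mathlib.GroupTheory.ResiduallyFinite
import Mathlib.NumberTheory.Padics.RingHoms

/-!
# No torsion close to the identity

A polynomial map of `ℤ_p ^ n` of finite order which is the identity on the points modulo `p²` is the
identity, so the congruence subgroups have no torsion.
-/

set_option autoImplicit false

noncomputable section

open MvPolynomial

namespace FA.BassLubotzky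

open DynamicalMordellLang

variable {σ : Type*} [Fintype σ] [DecidableEq σ] {p : ℕ} [hp : Fact p.Prime]

omit [Fintype σ] [DecidableEq σ] in
theorem toZModPow_two_eq_iff {x y : ℤ_[p]} :
    PadicInt.toZModPow 2 x = PadicInt.toZModPow 2 y ↔ ∃ c, x - y = (p : ℤ_[p]) ^ 2 * c := by
  rw [← sub_eq_zero, ← map_sub, ← RingHom.mem_ker, PadicInt.ker_toZModPow,
    Ideal.mem_span_singleton, dvd_iff_exists_eq_mul_left]
  exact exists_congr fun c => by rw [mul_comm]

/-- **No torsion near the identity.** -/
theorem eq_X_of_iterate_eq_id (hp2 : p ≠ 2) {f : σ → MvPolynomial σ ℤ_[p]}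
    (hcong : ∀ x i, PadicInt.toZModPow 2 (evalMap f x i) = PadicInt.toZModPow 2 (x i))
    {m : ℕ} (hm : 0 < m) (hfin : (evalMap f)^[m] = id) (i : σ) : f i = X i := by
  classical
  set π : ℤ_[p] := (p : ℤ_[p]) with hπ
  have hπ0 : π ≠ 0 := by rw [hπ]; exact_mod_cast hp.out.ne_zero
  choose E hE using fun i => exists_linearization π 0 X (f i)
  choose c hc using fun i => toZModPow_two_eq_iff.1 (hcong 0 i)
  set J : Matrix σ σ ℤ_[p] := jac f 0
  set g : σ → MvPolynomial σ ℤ_[p] :=
    fun i => C (π * c i) + ((∑ l, C (J i l) * X l) + C π * E i) with hg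
  have hsemi : ∀ y, evalMap f (π • y) = π • evalMap g y := fun y => funext fun i => by
    have h := congrArg (eval y) (hE i)
    rw [eval_bind₁_eq, show evalMap (disc π 0 X) y = π • y from funext fun l => by
      simp [evalMap, disc]] at h
    have hc' : eval (0 : σ → ℤ_[p]) (f i) = π ^ 2 * c i := by simpa [evalMap] using hc i
    show eval (π • y) (f i) = π * eval y (g i)
    rw [h]
    simp only [hg, J, jac, Matrix.of_apply, map_add, map_mul, map_sum, eval_C, eval_X, hc']
    ring
  set π₁ := (PadicInt.toZMod : ℤ_[p] →+* ZMod p)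
  have hπ₁ : π₁ π = 0 := by simp [π₁, hπ]
  have hlin : ∀ y i, π₁ (eval y (g i)) = π₁ (y i) := fun y i => by
    obtain ⟨e, he⟩ := toZModPow_two_eq_iff.1 (hcong (π • y) i)
    rw [hsemi, Pi.smul_apply, Pi.smul_apply, smul_eq_mul, smul_eq_mul, ← mul_sub, sq,
      mul_assoc] at he
    have := congrArg π₁ (mul_left_cancel₀ hπ0 he)
    rwa [map_sub, map_mul, hπ₁, zero_mul, sub_eq_zero] at this
  have hJ : ∀ i l, π₁ (J i l) = if i = l then 1 else 0 := fun i l => by
    have := hlin (Pi.single l 1) i
    simpa [hg, hπ₁, Pi.single_apply, apply_ite π₁] using this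
  have hgmap : ∀ i, map π₁ (g i) = X i := fun i => by
    simp [hg, hπ₁, hJ, apply_ite (C : ZMod p → MvPolynomial σ (ZMod p)), ite_mul]
  have hit : ∀ k y, (evalMap f)^[k] (π • y) = π • (evalMap g)^[k] y := fun k y =>
    ((show Function.Semiconj (fun y : σ → ℤ_[p] => π • y) (evalMap g) (evalMap f) from
      fun y => (hsemi y).symm).iterate_right k y).symm
  have hgid : ∀ y i, evalMap g y i = y i := fun y i => by
    have hall := (finite_or_forall_of_congr_id hp2 hgmap y (X i - C (y i))).resolve_left
      fun hfin' =>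
      Set.infinite_of_injective_forall_mem (f := fun k => m * k)
        (fun a b h => Nat.eq_of_mul_eq_mul_left hm h) (fun k => by
          have h1 : (evalMap g)^[m * k] y = y := by
            have := hit (m * k) y
            rw [Function.iterate_mul, hfin, Function.iterate_id, id] at this
            exact funext fun l => mul_left_cancel₀ hπ0 (congrFun this l).symm
          simp [h1]) hfin'
    simpa [evalMap, sub_eq_zero] using hall 1
  haveI : Infinite ℤ_[p] := Infinite.of_injective (Nat.cast : ℕ → ℤ_[p]) Nat.cast_injective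
  refine funext_set (fun _ => Set.range fun c => π * c)
    (fun _ => Set.infinite_range_of_injective (mul_right_injective₀ hπ0)) fun x hx => ?_
  choose y hy using fun l => hx l (Set.mem_univ l)
  obtain rfl : π • y = x := funext hy
  rw [eval_X]
  show evalMap f (π • y) i = _
  rw [hsemi, Pi.smul_apply, hgid, Pi.smul_apply]

variable {K : Type*} [Field K] [CharZero K]

omit [DecidableEq σ] in
/-- The group of a finitely generated subgroup is `p`-adically integral. -/
theorem exists_integral {G : Subgroup (PolyAut σ K)} (hG : G.FG) :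
    ∃ (p : ℕ) (_ : Fact p.Prime) (O : Subring K) (ψ : O →+* ℤ_[p]),
      p ≠ 2 ∧ Function.Injective ψ ∧ G ≤ integralAut σ O := by
  classical
  obtain ⟨T, rfl⟩ := hG
  obtain ⟨p, hp, O, ψ, hp2, hψ, hO⟩ := exists_subring ((T ×ˢ (Finset.univ : Finset σ)).biUnion
    fun q => ((q.1 (X q.2)).support.image fun d => coeff d (q.1 (X q.2))) ∪
      ((q.1⁻¹ (X q.2)).support.image fun d => coeff d (q.1⁻¹ (X q.2))))
  refine ⟨p, hp, O, ψ, hp2, hψ, (Subgroup.closure_le _).2 fun g hg i => ⟨?_, ?_⟩⟩ <;>
    refine mem_range_map_iff_coeffs_subset.2 fun a ha => ?_ <;>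
    obtain ⟨d, hd, rfl⟩ := mem_coeffs_iff.1 (Finset.mem_coe.1 ha) <;>
    refine ⟨⟨_, hO _ ?_⟩, rfl⟩ <;>
    refine Finset.mem_biUnion.2 ⟨(g, i), Finset.mem_product.2 ⟨hg, Finset.mem_univ i⟩, ?_⟩
  · exact Finset.mem_union_left _ (Finset.mem_image_of_mem _ hd)
  · exact Finset.mem_union_right _ (Finset.mem_image_of_mem _ hd)

variable {O : Subring K} {ψ : O →+* ℤ_[p]}

omit [Fintype σ] [DecidableEq σ] in
theorem eq_one_of_liftMap (hψ : Function.Injective ψ) {g : integralAut σ O}
    (h : ∀ i, map ψ (liftMap g i) = X i) : g = 1 := by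
  refine Subtype.ext (AlgEquiv.coe_toAlgHom_injective (algHom_ext fun i => ?_))
  show (g : PolyAut σ K) (X i) = X i
  rw [← map_liftMap, map_injective ψ hψ ((h i).trans (map_X ψ i).symm), map_X]

omit [Fintype σ] [DecidableEq σ] in
/-- A nontrivial element moves a point modulo some power of `p`. -/
theorem exists_pointAction_ne_one (hψ : Function.Injective ψ) {g : integralAut σ O} (hg : g ≠ 1) :
    ∃ k, pointAction ((PadicInt.toZModPow k).comp ψ) g ≠ 1 := by
  by_contra h
  push Not at h
  haveI : Infinite ℤ_[p] := Infinite.of_injective (Nat.cast : ℕ → ℤ_[p]) Nat.cast_injective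
  refine hg (eq_one_of_liftMap hψ fun i => MvPolynomial.funext fun x => ?_)
  rw [eval_X]
  refine PadicInt.ext_of_toZModPow.1 fun k => ?_
  have := congrFun (comp_actMap ψ (PadicInt.toZModPow k) g x) i
  rwa [pointAction_eq_one (h k)] at this

/-- The congruence subgroup modulo `p²` has no torsion. -/
theorem eq_one_of_isOfFinOrder (hp2 : p ≠ 2) (hψ : Function.Injective ψ) {g : integralAut σ O}
    (hker : pointAction ((PadicInt.toZModPow 2).comp ψ) g = 1) (hfin : IsOfFinOrder g) : g = 1 := by
  obtain ⟨m, hm, hgm⟩ := isOfFinOrder_iff_pow_eq_one.1 hfin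
  refine eq_one_of_liftMap hψ (eq_X_of_iterate_eq_id hp2 (f := fun i => map ψ (liftMap g i))
    (fun x i => ?_) hm (funext fun x => ?_))
  · have := congrFun (comp_actMap ψ (PadicInt.toZModPow 2) g x) i
    rwa [pointAction_eq_one hker] at this
  · exact (actMap_pow ψ g m x).symm.trans (by rw [hgm, actMap_one, id])

end FA.BassLubotzky

end
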